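import Mathlib
import Fermat.Agent.S16.Eis17.QExp

/-!
# Fricke transformation of the weight-2 Eisenstein series of level `N`  (package (U)-EIS2, helper80)

On top of helper17's `Eis17` (`eis2Fun N = E2 ∣[2] diag(N,1) - E2`, `eis2 N`, `eis2Coeff`):
`eis2Fun N ∣[2] S = -(eis2Fun N ∣[2] [[1,0],[0,N]])`, i.e. `(eis2 N ∣ S)(z) = -(1/N) eis2 N (z/N)`,
and the `q^(1/N)`-expansions of the conjugates `eis2 N ∣ S T^j`
(coefficients `-(1/N) a_m ζ_N^{jm}`), in particular the value `-(N-1)/N` at the cusp `0`.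
-/

set_option autoImplicit false

namespace Fermat.Agent.S16.Eis80

open UpperHalfPlane ModularForm Matrix MatrixGroups Matrix.SpecialLinearGroup Filter Topology
  EisensteinSeries Fermat.Agent.S23 ArithmeticFunction Fermat.Agent.S16.Eis17
open scoped ModularForm Real Manifold

noncomputable section

/-- The constant `1 / (2 ζ(2))` of Mathlib's `E2_slash_action`. -/
def cE : ℂ := 1 / (2 * riemannZeta 2)

theorem E2_slash (γ : SL(2, ℤ)) : E2 ∣[(2 : ℤ)] γ = E2 - cE • D2 γ := E2_slash_action γ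

theorem smul_slash_pos (c : ℂ) (f : ℍ → ℂ) (k : ℤ) (g : GL (Fin 2) ℝ) (hg : 0 < (g.det : ℝ)) :
    (c • f) ∣[k] g = c • (f ∣[k] g) := by
  rw [ModularForm.smul_slash]
  congr 1
  rw [UpperHalfPlane.σ, if_pos hg]
  rfl

theorem sub_slash80 (k : ℤ) (g : GL (Fin 2) ℝ) (f f' : ℍ → ℂ) :
    (f - f') ∣[k] g = f ∣[k] g - f' ∣[k] g := by
  rw [sub_eq_add_neg, SlashAction.add_slash, SlashAction.neg_slash, ← sub_eq_add_neg]

theorem sub_slash80SL (k : ℤ) (g : SL(2, ℤ)) (f f' : ℍ → ℂ) :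
    (f - f') ∣[k] g = f ∣[k] g - f' ∣[k] g := by
  rw [sub_eq_add_neg, SlashAction.add_slash, SlashAction.neg_slash, ← sub_eq_add_neg]

theorem heckeDiagMatrix_mul_S {N : ℕ} (hN : 0 < N) :
    heckeDiagMatrix N * ((ModularGroup.S : SL(2, ℤ)) : GL (Fin 2) ℝ) =
      ((ModularGroup.S : SL(2, ℤ)) : GL (Fin 2) ℝ) * utGL 1 N 0 one_pos hN := by
  apply Units.ext
  rw [Units.val_mul, Units.val_mul, val_heckeDiagMatrix hN.ne', val_utGL]
  ext i j
  fin_cases i <;> fin_cases j <;>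
    simp [Matrix.mul_apply, Fin.sum_univ_two]

theorem D2_S_slash_utGL {N : ℕ} (hN : 0 < N) :
    D2 ModularGroup.S ∣[(2 : ℤ)] utGL 1 N 0 one_pos hN = D2 ModularGroup.S := by
  ext τ
  rw [slash_utGL_apply, D2_S, D2_S, coe_utGL_smul]
  have hNc : (N : ℂ) ≠ 0 := Nat.cast_ne_zero.mpr hN.ne'
  have hτ : (τ : ℂ) ≠ 0 := ne_zero τ
  simp only [Nat.cast_one, one_mul, Int.cast_zero, add_zero]
  rw [show (2 : ℤ) - 1 = 1 by norm_num, zpow_one, _root_.zpow_neg, zpow_ofNat]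
  field_simp

theorem heckeDiagMatrix_smul_utGL {N : ℕ} (hN : 0 < N) (τ : ℍ) :
    heckeDiagMatrix N • (utGL 1 N 0 one_pos hN • τ) = τ := by
  apply UpperHalfPlane.ext
  rw [coe_heckeDiagMatrix_smul hN.ne', coe_utGL_smul]
  have hNc : (N : ℂ) ≠ 0 := Nat.cast_ne_zero.mpr hN.ne'
  simp only [Nat.cast_one, one_mul, Int.cast_zero, add_zero]
  field_simp

theorem E2_slash_heckeDiagMatrix_slash_utGL {N : ℕ} (hN : 0 < N) :
    (E2 ∣[(2 : ℤ)] heckeDiagMatrix N) ∣[(2 : ℤ)] utGL 1 N 0 one_pos hN = E2 := by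
  ext τ
  rw [slash_utGL_apply, slash_heckeDiagMatrix_apply 2 hN.ne', heckeDiagMatrix_smul_utGL hN]
  have hNc : (N : ℂ) ≠ 0 := Nat.cast_ne_zero.mpr hN.ne'
  simp only [Nat.cast_one, one_mul]
  rw [show (2 : ℤ) - 1 = 1 by norm_num, zpow_one, _root_.zpow_neg, zpow_ofNat]
  field_simp

/-- **Fricke transformation** of `eis2Fun N`:
`eis2Fun N ∣[2] S = -(eis2Fun N ∣[2] [[1,0],[0,N]])`. -/
theorem eis2Fun_slash_S {N : ℕ} (hN : 0 < N) :
    eis2Fun N ∣[(2 : ℤ)] ModularGroup.S = -(eis2Fun N ∣[(2 : ℤ)] utGL 1 N 0 one_pos hN) := by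
  have h1 : (E2 ∣[(2 : ℤ)] heckeDiagMatrix N) ∣[(2 : ℤ)] ModularGroup.S =
      E2 ∣[(2 : ℤ)] utGL 1 N 0 one_pos hN - cE • D2 ModularGroup.S := by
    rw [ModularForm.SL_slash, ← SlashAction.slash_mul, heckeDiagMatrix_mul_S hN,
      SlashAction.slash_mul, ← ModularForm.SL_slash, E2_slash, sub_slash80,
      smul_slash_pos _ _ _ _ (det_utGL_pos 1 N 0 one_pos hN), D2_S_slash_utGL hN]
  have h2 : eis2Fun N ∣[(2 : ℤ)] utGL 1 N 0 one_pos hN =
      E2 - E2 ∣[(2 : ℤ)] utGL 1 N 0 one_pos hN := by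
    rw [eis2Fun, sub_slash80, E2_slash_heckeDiagMatrix_slash_utGL hN]
  rw [h2, eis2Fun, sub_slash80SL, h1, E2_slash]
  abel

theorem coe_SL_GL_apply (γ : SL(2, ℤ)) (a b : Fin 2) :
    ((γ : GL (Fin 2) ℝ) : Matrix (Fin 2) (Fin 2) ℝ) a b = ((γ a b : ℤ) : ℝ) := by
  simp

theorem val_T_zpow (j : ℤ) :
    (((ModularGroup.T ^ j : SL(2, ℤ)) : GL (Fin 2) ℝ) : Matrix (Fin 2) (Fin 2) ℝ) =
      !![1, (j : ℝ); 0, 1] := by
  have h := ModularGroup.coe_T_zpow j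
  ext a b
  rw [coe_SL_GL_apply, h]
  fin_cases a <;> fin_cases b <;> simp

theorem utGL_mul_T_zpow {N : ℕ} (hN : 0 < N) (j : ℤ) :
    utGL 1 N 0 one_pos hN * ((ModularGroup.T ^ j : SL(2, ℤ)) : GL (Fin 2) ℝ) =
      utGL 1 N j one_pos hN := by
  apply Units.ext
  rw [Units.val_mul, val_utGL, val_utGL, val_T_zpow]
  ext a b
  fin_cases a <;> fin_cases b <;>
    simp [Matrix.mul_apply, Fin.sum_univ_two]

/-- The conjugates of `eis2Fun N` by `S T^j`. -/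
theorem eis2Fun_slash_S_mul_T_zpow {N : ℕ} (hN : 0 < N) (j : ℤ) :
    eis2Fun N ∣[(2 : ℤ)] (ModularGroup.S * ModularGroup.T ^ j) =
      -(eis2Fun N ∣[(2 : ℤ)] utGL 1 N j one_pos hN) := by
  rw [SlashAction.slash_mul, eis2Fun_slash_S hN, SlashAction.neg_slash, ModularForm.SL_slash,
    ← SlashAction.slash_mul, utGL_mul_T_zpow hN j]

theorem eis2Fun_slash_S_mul_T_zpow_apply {N : ℕ} (hN : 0 < N) (j : ℤ) (τ : ℍ) :
    (eis2Fun N ∣[(2 : ℤ)] (ModularGroup.S * ModularGroup.T ^ j)) τ =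
      -(1 / (N : ℂ)) * eis2Fun N (utGL 1 N j one_pos hN • τ) := by
  rw [eis2Fun_slash_S_mul_T_zpow hN j, Pi.neg_apply, slash_utGL_apply]
  have hNc : (N : ℂ) ≠ 0 := Nat.cast_ne_zero.mpr hN.ne'
  simp only [Nat.cast_one, one_mul]
  rw [show (2 : ℤ) - 1 = 1 by norm_num, zpow_one, _root_.zpow_neg, zpow_ofNat]
  field_simp

/-- The primitive `N`-th root of unity `e^{2πi/N}`. -/
def zetaN (N : ℕ) : ℂ := Complex.exp (2 * π * Complex.I / N)

theorem qParam_utGL {N : ℕ} (hN : 0 < N) (j : ℤ) (τ : ℍ) :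
    Function.Periodic.qParam 1 ((utGL 1 N j one_pos hN • τ : ℍ) : ℂ) =
      zetaN N ^ j * Function.Periodic.qParam (N : ℝ) τ := by
  rw [coe_utGL_smul]
  simp only [Function.Periodic.qParam, zetaN, Complex.ofReal_one, div_one, Nat.cast_one, one_mul,
    Complex.ofReal_natCast]
  rw [← Complex.exp_int_mul, ← Complex.exp_add]
  congr 1
  have hNc : (N : ℂ) ≠ 0 := Nat.cast_ne_zero.mpr hN.ne'
  field_simp
  ring

/-- `q^(1/N)`-expansion of the conjugates of `eis2Fun N` by `S T^j`: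
coefficients `-(1/N) a_m ζ_N^{jm}`. -/
theorem hasSum_eis2Fun_slash_S_mul_T_zpow {N : ℕ} (hN : 0 < N) (j : ℤ) (τ : ℍ) :
    HasSum (fun m : ℕ => (-(1 / (N : ℂ)) * eis2Coeff N m * (zetaN N ^ j) ^ m) •
        Function.Periodic.qParam (N : ℝ) τ ^ m)
      ((eis2Fun N ∣[(2 : ℤ)] (ModularGroup.S * ModularGroup.T ^ j)) τ) := by
  rw [eis2Fun_slash_S_mul_T_zpow_apply hN j τ]
  have : NeZero N := ⟨hN.ne'⟩
  have h1 := (hasSum_eis2 N (utGL 1 N j one_pos hN • τ)).mul_left (-(1 / (N : ℂ)))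
  rw [show eis2 N (utGL 1 N j one_pos hN • τ) = eis2Fun N (utGL 1 N j one_pos hN • τ) from rfl] at h1
  rw [qParam_utGL hN j τ] at h1
  have heq : (fun m : ℕ => (-(1 / (N : ℂ)) * eis2Coeff N m * (zetaN N ^ j) ^ m) •
        Function.Periodic.qParam (N : ℝ) τ ^ m) =
      fun m => -(1 / (N : ℂ)) * eis2Coeff N m •
        (zetaN N ^ j * Function.Periodic.qParam (N : ℝ) τ) ^ m := by
    funext m
    simp only [smul_eq_mul, mul_pow]
    ring
  rw [heq]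
  exact h1

end

end Fermat.Agent.S16.Eis80
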