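import Mathlib
import Fermat.Agent.S16.Eis80.Fricke
import Fermat.Agent.S24.JOrd62

/-!
# Values of the weight-2 Eisenstein series of level `N` at the cusps `∞` and `0`
(package (U)-EIS2, helper80)

`eis2 N → N - 1` at `i∞` and `eis2 N ∣[2] S → -(N-1)/N` at `i∞`.
-/

set_option autoImplicit false

namespace Fermat.Agent.S16.Eis80

open UpperHalfPlane ModularForm Matrix MatrixGroups Matrix.SpecialLinearGroup Filter Topology
  EisensteinSeries Fermat.Agent.S23 Fermat.Agent.S16.Eis17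
open scoped ModularForm Real Manifold

noncomputable section

theorem tendsto_eis2Fun (N : ℕ) [NeZero N] :
    Tendsto (eis2Fun N) atImInfty (𝓝 ((N : ℂ) - 1)) := by
  have h := Fermat.Agent.S24.JOrd62.tendsto_of_hasSum_qExpansion (f := eis2Fun N)
    (c := eis2Coeff N) (mdifferentiable_eis2Fun N) (fun τ => hasSum_eis2 N τ)
  rwa [eis2Coeff_zero] at h

/-- The value of `eis2 N` at the cusp `0`: `eis2 N ∣[2] S → -(N-1)/N`. -/
theorem tendsto_eis2Fun_slash_S (N : ℕ) [NeZero N] :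
    Tendsto (eis2Fun N ∣[(2 : ℤ)] ModularGroup.S) atImInfty
      (𝓝 (-(1 / (N : ℂ)) * ((N : ℂ) - 1))) := by
  have hN : 0 < N := Nat.pos_of_ne_zero (NeZero.ne N)
  have hfun : (eis2Fun N ∣[(2 : ℤ)] ModularGroup.S) =
      fun τ => -(1 / (N : ℂ)) * eis2Fun N (utGL 1 N 0 one_pos hN • τ) := by
    funext τ
    have := eis2Fun_slash_S_mul_T_zpow_apply hN 0 τ
    simpa using this
  rw [hfun]
  have hut : (utGL 1 N 0 one_pos hN : GL (Fin 2) ℝ) 1 0 = 0 := utGL_one_zero 1 N 0 one_pos hN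
  exact ((tendsto_eis2Fun N).comp (tendsto_smul_atImInfty hut)).const_mul _

end

end Fermat.Agent.S16.Eis80
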